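import Fermat.Agent.LT.H338.TreeDist

/-!
# Row LT, tower T6 — the count of vertices of given displacement, fixed-vertex case (helper338)

`ncard_disp_even338` : in a `(q + 1)`-regular tree distance, a distance-preserving map `g` with
exactly `n₀ ≥ 1` fixed points has exactly `(q n₀ + 2 - n₀) q ^ r` points of displacement `2 (r + 1)`.
-/

namespace Fermat.Agent.LT.H338

open Finset Classical

section Count

variable {V : Type*} {d : V → V → ℕ} (hd : IsTreeDist338 d) (o : V)
  (q : ℕ) (hreg : ∀ v, {w | d v w = 1}.ncard = q + 1)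

include hreg in
theorem nb_finite338 (v : V) : {w | d v w = 1}.Finite :=
  Set.finite_of_ncard_ne_zero (by rw [hreg v]; omega)

/-- The finset of neighbours. -/
noncomputable def nb338 (v : V) : Finset V := (nb_finite338 q hreg v).toFinset

theorem mem_nb338 {v w : V} : w ∈ nb338 q hreg v ↔ d v w = 1 := by
  simp [nb338]

theorem card_nb338 (v : V) : (nb338 q hreg v).card = q + 1 := by
  rw [nb338, ← Set.ncard_eq_toFinset_card _ (nb_finite338 q hreg v), hreg v]

/-- The finset of children of `v` with respect to the root `o`. -/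
noncomputable def ch338 (v : V) : Finset V :=
  open Classical in (nb338 q hreg v).filter (fun z => d o z = d o v + 1)

theorem mem_ch338 {v z : V} : z ∈ ch338 o q hreg v ↔ d v z = 1 ∧ d o z = d o v + 1 := by
  simp [ch338, mem_nb338]

include hd in
theorem par_of_mem_ch338 {v z : V} (h : z ∈ ch338 o q hreg v) : o ≠ z ∧ par338 hd o z = v := by
  rw [mem_ch338] at h
  have hoz : o ≠ z := root_ne_of_depth338 hd o h.2
  refine ⟨hoz, (par338_unique hd o hoz ?_ h.2.symm).symm⟩
  rw [hd.symm]; exact h.1

theorem mem_ch_par338 {x : V} (h : o ≠ x) : x ∈ ch338 o q hreg (par338 hd o x) := by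
  rw [mem_ch338]
  refine ⟨?_, (par338_depth hd o h).symm⟩
  rw [hd.symm]; exact par338_adj hd o h

include hd in
theorem card_ch_root338 : (ch338 o q hreg o).card = q + 1 := by
  classical
  have : ch338 o q hreg o = nb338 q hreg o := by
    ext z
    rw [mem_ch338, mem_nb338]
    constructor
    · exact fun h => h.1
    · intro h
      refine ⟨h, ?_⟩
      rw [(hd.eq_zero o o).2 rfl, h]
  rw [this, card_nb338]

include hd in
theorem card_ch338 {v : V} (h : o ≠ v) : (ch338 o q hreg v).card = q := by
  classical
  have hins : nb338 q hreg v = insert (par338 hd o v) (ch338 o q hreg v) := by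
    ext z
    rw [mem_insert, mem_ch338, mem_nb338]
    constructor
    · intro hz
      rcases hd.step o v z hz with h1 | h1
      · left; exact par338_unique hd o h hz h1.symm
      · right; exact ⟨hz, h1⟩
    · rintro (rfl | hz)
      · exact par338_adj hd o h
      · exact hz.1
  have hnot : par338 hd o v ∉ ch338 o q hreg v := by
    intro hm
    rw [mem_ch338] at hm
    have := par338_depth hd o h
    omega
  have := card_nb338 q hreg v
  rw [hins, card_insert_of_notMem hnot] at this
  omega

/-- The children of the elements of `T`. -/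
noncomputable def childF338 (T : Finset V) : Finset V :=
  open Classical in T.biUnion (ch338 o q hreg)

include hd in
theorem mem_childF338 {T : Finset V} {x : V} :
    x ∈ childF338 o q hreg T ↔ o ≠ x ∧ par338 hd o x ∈ T := by
  classical
  rw [childF338, mem_biUnion]
  constructor
  · rintro ⟨y, hy, hx⟩
    obtain ⟨h1, h2⟩ := par_of_mem_ch338 hd o q hreg hx
    exact ⟨h1, h2 ▸ hy⟩
  · rintro ⟨h1, h2⟩
    exact ⟨_, h2, mem_ch_par338 hd o q hreg h1⟩

include hd in
theorem card_childF338 (T : Finset V) :
    (childF338 o q hreg T).card = q * T.card + (if o ∈ T then 1 else 0) := by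
  classical
  rw [childF338, card_biUnion]
  · have hsum : ∀ y ∈ T, (ch338 o q hreg y).card = q + (if y = o then 1 else 0) := by
      intro y _
      by_cases hy : y = o
      · subst hy; rw [card_ch_root338 hd y q hreg, if_pos rfl]
      · rw [card_ch338 hd o q hreg (Ne.symm hy), if_neg hy, Nat.add_zero]
    rw [sum_congr rfl hsum, sum_add_distrib, sum_const, smul_eq_mul, mul_comm, sum_ite_eq' T o]
  · intro y _ y' _ hne
    rw [Function.onFun, Finset.disjoint_left]
    intro z hz hz'
    exact hne ((par_of_mem_ch338 hd o q hreg hz).2.symm.trans (par_of_mem_ch338 hd o q hreg hz').2)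

end Count

section Main

variable {V : Type*} {d : V → V → ℕ} (hd : IsTreeDist338 d)
  (q : ℕ) (hreg : ∀ v, {w | d v w = 1}.ncard = q + 1)
  (g : V → V) (hg : ∀ x y, d (g x) (g y) = d x y) (o : V) (ho : g o = o)
  (hfix : {x | g x = x}.Finite)

/-- The finset of points of displacement `2 r`. -/
noncomputable def sf338 : ℕ → Finset V
  | 0 => hfix.toFinset
  | 1 => childF338 o q hreg hfix.toFinset \ hfix.toFinset
  | (r + 2) => childF338 o q hreg (sf338 (r + 1))

include hd hg ho in
theorem mem_sf338 : ∀ (r : ℕ) (x : V), x ∈ sf338 q hreg g o hfix r ↔ d x (g x) = 2 * r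
  | 0, x => by
    rw [sf338, Set.Finite.mem_toFinset, Set.mem_ofPred_eq, Nat.mul_zero, hd.eq_zero]
    exact eq_comm
  | 1, x => by
    rw [sf338, mem_sdiff, mem_childF338 hd, Set.Finite.mem_toFinset, Set.Finite.mem_toFinset,
      Set.mem_ofPred_eq, Set.mem_ofPred_eq]
    constructor
    · rintro ⟨⟨_, h2⟩, h3⟩
      rw [disp_step338 hd g hg o ho h3, h2, (hd.eq_zero _ _).2 rfl]
    · intro h
      have hne : g x ≠ x := by
        intro e
        rw [e, (hd.eq_zero x x).2 rfl] at h
        omega
      have hox : o ≠ x := by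
        intro e; subst e; exact hne ho
      refine ⟨⟨hox, ?_⟩, hne⟩
      have := disp_step338 hd g hg o ho hne
      have h0 : d (par338 hd o x) (g (par338 hd o x)) = 0 := by omega
      exact ((hd.eq_zero _ _).1 h0).symm
  | (r + 2), x => by
    rw [sf338, mem_childF338 hd, mem_sf338 (r + 1)]
    constructor
    · rintro ⟨_, h2⟩
      have hne : g x ≠ x := by
        intro e
        have := fixed_par338 hd g hg o ho e
        rw [this, (hd.eq_zero _ _).2 rfl] at h2
        omega
      rw [disp_step338 hd g hg o ho hne, h2]; ring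
    · intro h
      have hne : g x ≠ x := by
        intro e
        rw [e, (hd.eq_zero x x).2 rfl] at h
        omega
      have hox : o ≠ x := by
        intro e; subst e; exact hne ho
      refine ⟨hox, ?_⟩
      have := disp_step338 hd g hg o ho hne
      omega

include hd hg ho in
theorem card_sf_one338 :
    (sf338 q hreg g o hfix 1).card = q * hfix.toFinset.card + 2 - hfix.toFinset.card := by
  classical
  have hoF : o ∈ hfix.toFinset := by
    rw [Set.Finite.mem_toFinset]; exact ho
  have hpos : 1 ≤ hfix.toFinset.card := card_pos.2 ⟨o, hoF⟩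
  have hsub : hfix.toFinset.erase o ⊆ childF338 o q hreg hfix.toFinset := by
    intro x hx
    rw [mem_erase] at hx
    rw [mem_childF338 hd]
    refine ⟨Ne.symm hx.1, ?_⟩
    rw [Set.Finite.mem_toFinset] at hx ⊢
    exact fixed_par338 hd g hg o ho hx.2
  have heq : sf338 q hreg g o hfix 1 = childF338 o q hreg hfix.toFinset \ hfix.toFinset.erase o := by
    rw [sf338]
    ext x
    rw [mem_sdiff, mem_sdiff, mem_erase, mem_childF338 hd]
    constructor
    · rintro ⟨h1, h2⟩
      exact ⟨h1, fun h => h2 h.2⟩
    · rintro ⟨h1, h2⟩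
      exact ⟨h1, fun h => h2 ⟨Ne.symm h1.1, h⟩⟩
  rw [heq, card_sdiff_of_subset hsub, card_childF338 hd, if_pos hoF, card_erase_of_mem hoF]
  omega

include hd hg ho in
theorem card_sf_succ338 (r : ℕ) :
    (sf338 q hreg g o hfix (r + 2)).card = q * (sf338 q hreg g o hfix (r + 1)).card := by
  have hnot : o ∉ sf338 q hreg g o hfix (r + 1) := by
    rw [mem_sf338 hd q hreg g hg o ho hfix, ho, (hd.eq_zero o o).2 rfl]
    omega
  rw [sf338, card_childF338 hd, if_neg hnot, Nat.add_zero]

include hd hg ho in
theorem card_sf338 (r : ℕ) :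
    (sf338 q hreg g o hfix (r + 1)).card
      = (q * hfix.toFinset.card + 2 - hfix.toFinset.card) * q ^ r := by
  induction r with
  | zero => rw [card_sf_one338 hd q hreg g hg o ho hfix, pow_zero, mul_one]
  | succ r ih => rw [card_sf_succ338 hd q hreg g hg o ho hfix, ih]; ring

include hd hreg hg ho hfix in
/-- **Displacement count, fixed-vertex case.** -/
theorem ncard_disp_even338 (r : ℕ) :
    {x | d x (g x) = 2 * (r + 1)}.ncard
      = (q * {x | g x = x}.ncard + 2 - {x | g x = x}.ncard) * q ^ r := by
  have h1 : {x | d x (g x) = 2 * (r + 1)} = ↑(sf338 q hreg g o hfix (r + 1)) := by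
    ext x
    rw [Set.mem_ofPred_eq, mem_coe, mem_sf338 hd q hreg g hg o ho hfix]
  rw [h1, Set.ncard_coe_finset, card_sf338 hd q hreg g hg o ho hfix,
    Set.ncard_eq_toFinset_card _ hfix]

include hd hg ho in
theorem disp_even338 (x : V) : Even (d x (g x)) :=
  even_disp338 hd g hg o ho (d o x) x rfl

end Main

end Fermat.Agent.LT.H338
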