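import Mathlib

/-!
# Row LT, tower T6 — displacement counts for automorphisms of a regular tree (helper338, OFF-MAIN)

Mathlib only.  A *tree distance* on `V` is a function `d : V → V → ℕ` with the four properties of
`IsTreeDist338` (the distance function of a tree satisfies them, see `TreeGraph.lean`; the distance
`a - b` of the Cartan invariant `(a, b)` on homothety classes of lattices satisfies them too).

For a distance-preserving map `g` with a fixed point `o`:
* `disp_step338` : `d x (g x) = d (par x) (g (par x)) + 2` for every non-fixed `x`
  (`par x` = the neighbour of `x` towards `o`);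
* `even_disp338` : every displacement is even;
* `ncard_disp_even338` : if all vertices have `q + 1` neighbours and `g` has exactly `n₀` fixed
  points, then the number of `x` with `d x (g x) = 2 (r + 1)` is `(q n₀ + 2 - n₀) q ^ r`.
This is the count behind the fundamental lemma for `GL2` at elliptic elements fixing a vertex.
-/

namespace Fermat.Agent.LT.H338

open Finset

/-- The properties of the distance function of a tree that the counts use. -/
structure IsTreeDist338 {V : Type*} (d : V → V → ℕ) : Prop where
  eq_zero : ∀ x y, d x y = 0 ↔ x = y
  symm : ∀ x y, d x y = d y x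
  step : ∀ u v w, d v w = 1 → d u v = d u w + 1 ∨ d u w = d u v + 1
  toward : ∀ u v, u ≠ v → ∃! w, d v w = 1 ∧ d u w + 1 = d u v

section Rooted

variable {V : Type*} {d : V → V → ℕ} (hd : IsTreeDist338 d) (o : V)

/-- The parent of `x` with respect to the root `o` (and `o` itself for `x = o`). -/
noncomputable def par338 (x : V) : V :=
  open Classical in if h : o ≠ x then (hd.toward o x h).exists.choose else x

theorem par338_root : par338 hd o o = o := by
  simp [par338]

theorem par338_adj {x : V} (h : o ≠ x) : d x (par338 hd o x) = 1 := by
  rw [par338, dif_pos h]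
  exact (hd.toward o x h).exists.choose_spec.1

theorem par338_depth {x : V} (h : o ≠ x) : d o (par338 hd o x) + 1 = d o x := by
  rw [par338, dif_pos h]
  exact (hd.toward o x h).exists.choose_spec.2

theorem par338_unique {x w : V} (h : o ≠ x) (h1 : d x w = 1) (h2 : d o w + 1 = d o x) :
    w = par338 hd o x :=
  (hd.toward o x h).unique ⟨h1, h2⟩ ⟨par338_adj hd o h, par338_depth hd o h⟩

include hd in
theorem root_ne_of_depth338 {x : V} {n : ℕ} (h : d o x = n + 1) : o ≠ x := by
  intro e
  have := (hd.eq_zero o x).2 e
  omega

/-- The neighbour of `x` towards any `y` that is not deeper than `x` is the parent of `x`. -/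
theorem star338 : ∀ (n : ℕ) (x y : V), d x y = n → x ≠ y → d o y ≤ d o x →
    d y (par338 hd o x) + 1 = d y x := by
  intro n
  induction n using Nat.strong_induction_on with
  | _ n ih =>
    intro x y hxy hne hle
    obtain ⟨w, ⟨hw1, hw2⟩, -⟩ := hd.toward y x (Ne.symm hne)
    have hox : o ≠ x := by
      intro e
      subst e
      have h0 : d o o = 0 := (hd.eq_zero o o).2 rfl
      have : d o y = 0 := by omega
      exact hne ((hd.eq_zero o y).1 this)
    rcases hd.step o x w hw1 with h | h
    · have : w = par338 hd o x := par338_unique hd o hox hw1 h.symm
      rw [← this]; exact hw2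
    · exfalso
      have hwy : w ≠ y := by
        intro e
        subst e
        omega
      have hlt : d w y < n := by
        rw [hd.symm w y, ← hxy, hd.symm x y]; omega
      have hrec := ih (d w y) hlt w y rfl hwy (by omega)
      have how : o ≠ w := root_ne_of_depth338 hd o h
      have hx : x = par338 hd o w :=
        par338_unique hd o how (by rw [hd.symm]; exact hw1) h.symm
      rw [← hx] at hrec
      omega

end Rooted

section Fixed

variable {V : Type*} {d : V → V → ℕ} (hd : IsTreeDist338 d) (g : V → V)
  (hg : ∀ x y, d (g x) (g y) = d x y) (o : V) (ho : g o = o)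

include hg ho in
theorem depth_map338 (x : V) : d o (g x) = d o x := by
  conv_lhs => rw [← ho]
  exact hg o x

include hg ho in
theorem map_par338 {x : V} (h : o ≠ x) : g (par338 hd o x) = par338 hd o (g x) := by
  have hd0 := depth_map338 g hg o ho x
  have hox : d o x ≠ 0 := fun e => h ((hd.eq_zero o x).1 e)
  have h' : o ≠ g x := by
    intro e
    have := (hd.eq_zero o (g x)).2 e
    omega
  refine par338_unique hd o h' ?_ ?_
  · rw [hg]; exact par338_adj hd o h
  · rw [depth_map338 g hg o ho, hd0]; exact par338_depth hd o h

include hg ho in
theorem fixed_par338 {x : V} (hx : g x = x) : g (par338 hd o x) = par338 hd o x := by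
  by_cases h : o = x
  · subst h; rw [par338_root]; exact ho
  · rw [map_par338 hd g hg o ho h, hx]

include hg ho in
/-- The displacement grows by exactly `2` at each step away from the fixed points. -/
theorem disp_step338 {x : V} (hx : g x ≠ x) :
    d x (g x) = d (par338 hd o x) (g (par338 hd o x)) + 2 := by
  have hox : o ≠ x := by
    intro e; subst e; exact hx ho
  have hd0 := depth_map338 g hg o ho x
  have hp := par338_depth hd o hox
  have h1 := star338 hd o (d x (g x)) x (g x) rfl (Ne.symm hx) (by omega)
  have hne : g x ≠ par338 hd o x := by
    intro e
    rw [← e] at hp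
    omega
  have h2 := star338 hd o (d (g x) (par338 hd o x)) (g x) (par338 hd o x) rfl hne (by omega)
  rw [← map_par338 hd g hg o ho hox] at h2
  rw [hd.symm (par338 hd o x) (g x)] at h2
  rw [hd.symm (g x) x] at h1
  omega

include hd hg ho in
theorem even_disp338 : ∀ (n : ℕ) (x : V), d o x = n → Even (d x (g x)) := by
  intro n
  induction n using Nat.strong_induction_on with
  | _ n ih =>
    intro x hx
    by_cases hfx : g x = x
    · rw [hfx, (hd.eq_zero x x).2 rfl]; exact Even.zero
    · have hox : o ≠ x := by
        intro e; subst e; exact hfx ho
      have hp := par338_depth hd o hox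
      have := ih (d o (par338 hd o x)) (by omega) (par338 hd o x) rfl
      rw [disp_step338 hd g hg o ho hfx]
      exact this.add even_two

end Fixed

end Fermat.Agent.LT.H338
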