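import Fermat.Agent.LT.H338.TreeCount

/-!
# Row LT, tower T6 — displacement counts, inverted-edge case (helper338, OFF-MAIN, Mathlib only)

`g` distance-preserving with `g a = b`, `g b = a` for adjacent `a`, `b` (an inversion):
* `disp_inv338` : `d x (g x) = 2 * min (d a x) (d b x) + 1`;
* `ncard_disp_odd338` : in a `(q + 1)`-regular tree distance there are exactly `2 q ^ r` points of
  displacement `2 r + 1`.
-/

namespace Fermat.Agent.LT.H338

open Finset Classical

section Side

variable {V : Type*} {d : V → V → ℕ} (hd : IsTreeDist338 d)
  (g : V → V) (hg : ∀ x y, d (g x) (g y) = d x y) (a b : V) (hab : d a b = 1)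
  (hga : g a = b) (hgb : g b = a)

include hd hab in
theorem side338 (x : V) : d b x = d a x + 1 ∨ d a x = d b x + 1 := by
  rcases hd.step x a b hab with h | h
  · right; rw [hd.symm a x, hd.symm b x]; exact h
  · left; rw [hd.symm a x, hd.symm b x]; exact h

include hd hab in
/-- On the side of `a`, the parent with respect to `a` is on the side of `a`. -/
theorem side_par338 {x : V} (hx : d b x = d a x + 1) (hax : a ≠ x) :
    d b (par338 hd a x) = d a (par338 hd a x) + 1 := by
  have hp := par338_depth hd a hax
  have hxb : x ≠ b := by
    intro e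
    rw [e, (hd.eq_zero b b).2 rfl] at hx
    omega
  have h1 := star338 hd a (d x b) x b rfl hxb (by rw [hab]; omega)
  omega

include hd hg hab hga hgb in
theorem disp_side338 : ∀ (n : ℕ) (x : V), d a x = n → d b x = n + 1 → d x (g x) = 2 * n + 1 := by
  intro n
  induction n with
  | zero =>
    intro x h0 _
    have : a = x := (hd.eq_zero a x).1 h0
    subst this
    rw [hga, hab]
  | succ n ih =>
    intro x hax hbx
    have hne : a ≠ x := root_ne_of_depth338 hd a hax
    have hp := par338_depth hd a hne
    have hpadj := par338_adj hd a hne
    have hpside := side_par338 hd a b hab (x := x) (by omega) hne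
    have hrec := ih (par338 hd a x) (by omega) (by omega)
    -- depths of `g x`
    have hbg : d b (g x) = d a x := by rw [← hga]; exact hg a x
    have hag : d a (g x) = d b x := by rw [← hgb]; exact hg b x
    have hbne : b ≠ x := by
      intro e
      have := (hd.eq_zero b x).2 e
      omega
    -- parent of `x` with respect to `b`
    have hpb : par338 hd a x = par338 hd b x :=
      par338_unique hd b hbne hpadj (by omega)
    have hxg : x ≠ g x := by
      intro e
      rw [← e] at hbg
      omega
    have h1 := star338 hd b (d x (g x)) x (g x) rfl hxg (by omega)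
    rw [← hpb] at h1
    -- parent of `g x` with respect to `a`
    have hane : a ≠ g x := by
      intro e
      have := (hd.eq_zero a (g x)).2 e
      omega
    have hgp : g (par338 hd a x) = par338 hd a (g x) := by
      refine par338_unique hd a hane ?_ ?_
      · rw [hg]; exact hpadj
      · have : d a (g (par338 hd a x)) = d b (par338 hd a x) := by
          rw [← hgb]; exact hg b _
        omega
    have hgne : g x ≠ par338 hd a x := by
      intro e
      rw [← e] at hp
      omega
    have h2 := star338 hd a (d (g x) (par338 hd a x)) (g x) (par338 hd a x) rfl hgne (by omega)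
    rw [← hgp, hd.symm (par338 hd a x) (g x)] at h2
    rw [hd.symm (g x) x] at h1
    omega

include hd hg hab hga hgb in
/-- **Displacement of an inversion.** -/
theorem disp_inv338 (x : V) : d x (g x) = 2 * min (d a x) (d b x) + 1 := by
  have hba : d b a = 1 := by rw [hd.symm]; exact hab
  rcases side338 hd a b hab x with h | h
  · rw [disp_side338 hd g hg a b hab hga hgb (d a x) x rfl h, Nat.min_eq_left (by omega)]
  · rw [disp_side338 hd g hg b a hba hgb hga (d b x) x rfl h, Nat.min_eq_right (by omega)]

end Side

section CountSide

variable {V : Type*} {d : V → V → ℕ} (hd : IsTreeDist338 d)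
  (q : ℕ) (hreg : ∀ v, {w | d v w = 1}.ncard = q + 1) (a b : V) (hab : d a b = 1)

/-- The finset of points at depth `n` on the side of `a`. -/
noncomputable def af338 : ℕ → Finset V
  | 0 => {a}
  | (n + 1) => (childF338 a q hreg (af338 n)).erase b

include hd hab in
theorem mem_af338 : ∀ (n : ℕ) (x : V),
    x ∈ af338 q hreg a b n ↔ d a x = n ∧ d b x = n + 1
  | 0, x => by
    rw [af338, mem_singleton]
    constructor
    · rintro rfl
      refine ⟨(hd.eq_zero x x).2 rfl, ?_⟩
      rw [hd.symm]; exact hab
    · rintro ⟨h, _⟩
      exact ((hd.eq_zero a x).1 h).symm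
  | (n + 1), x => by
    rw [af338, mem_erase, mem_childF338 hd, mem_af338 n]
    constructor
    · rintro ⟨hxb, hax, h1, h2⟩
      have hp := par338_depth hd a hax
      have h3 := star338 hd a (d x b) x b rfl hxb (by rw [hab]; omega)
      omega
    · rintro ⟨h1, h2⟩
      have hax : a ≠ x := root_ne_of_depth338 hd a h1
      have hxb : x ≠ b := by
        intro e
        rw [e, (hd.eq_zero b b).2 rfl] at h2
        omega
      have hp := par338_depth hd a hax
      have h3 := star338 hd a (d x b) x b rfl hxb (by rw [hab]; omega)
      exact ⟨hxb, hax, by omega, by omega⟩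

include hd hab in
theorem card_af338 : ∀ n : ℕ, (af338 q hreg a b n).card = q ^ n
  | 0 => by rw [af338, card_singleton, pow_zero]
  | 1 => by
    have hb : b ∈ childF338 a q hreg (af338 q hreg a b 0) := by
      rw [mem_childF338 hd, mem_af338 hd q hreg a b hab 0]
      have hne : a ≠ b := by
        intro e
        rw [e, (hd.eq_zero b b).2 rfl] at hab
        omega
      have hp := par338_depth hd a hne
      rw [hab] at hp
      have h0 : d a (par338 hd a b) = 0 := by omega
      have hpa : a = par338 hd a b := (hd.eq_zero _ _).1 h0
      refine ⟨hne, h0, ?_⟩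
      rw [← hpa, hd.symm]; exact hab
    rw [af338, card_erase_of_mem hb, card_childF338 hd, af338, card_singleton,
      if_pos (mem_singleton_self a), pow_one]
    omega
  | (n + 2) => by
    have hb : b ∉ childF338 a q hreg (af338 q hreg a b (n + 1)) := by
      rw [mem_childF338 hd, mem_af338 hd q hreg a b hab (n + 1)]
      rintro ⟨hne, h1, _⟩
      have hp := par338_depth hd a hne
      omega
    have ha : a ∉ af338 q hreg a b (n + 1) := by
      rw [mem_af338 hd q hreg a b hab (n + 1), (hd.eq_zero a a).2 rfl]
      omega
    rw [af338, erase_eq_of_notMem hb, card_childF338 hd, if_neg ha, card_af338 (n + 1)]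
    ring

end CountSide

section MainInv

variable {V : Type*} {d : V → V → ℕ} (hd : IsTreeDist338 d)
  (q : ℕ) (hreg : ∀ v, {w | d v w = 1}.ncard = q + 1)
  (g : V → V) (hg : ∀ x y, d (g x) (g y) = d x y) (a b : V) (hab : d a b = 1)
  (hga : g a = b) (hgb : g b = a)

include hd hreg hg hab hga hgb in
/-- **Displacement count, inverted-edge case.** -/
theorem ncard_disp_odd338 (r : ℕ) : {x | d x (g x) = 2 * r + 1}.ncard = 2 * q ^ r := by
  have hba : d b a = 1 := by rw [hd.symm]; exact hab
  have h1 : {x | d x (g x) = 2 * r + 1}
      = ↑(af338 q hreg a b r ∪ af338 q hreg b a r) := by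
    ext x
    rw [Set.mem_ofPred_eq, mem_coe, mem_union, mem_af338 hd q hreg a b hab,
      mem_af338 hd q hreg b a hba, disp_inv338 hd g hg a b hab hga hgb x]
    rcases side338 hd a b hab x with h | h
    · rw [Nat.min_eq_left (by omega)]; omega
    · rw [Nat.min_eq_right (by omega)]; omega
  have hdisj : Disjoint (af338 q hreg a b r) (af338 q hreg b a r) := by
    rw [Finset.disjoint_left]
    intro x hx hx'
    rw [mem_af338 hd q hreg a b hab] at hx
    rw [mem_af338 hd q hreg b a hba] at hx'
    omega
  rw [h1, Set.ncard_coe_finset, card_union_of_disjoint hdisj, card_af338 hd q hreg a b hab,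
    card_af338 hd q hreg b a hba]
  ring

include hd hg hab hga hgb in
theorem disp_odd338 (x : V) : Odd (d x (g x)) := by
  rw [disp_inv338 hd g hg a b hab hga hgb x]
  exact ⟨_, rfl⟩

end MainInv

end Fermat.Agent.LT.H338
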