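import Fermat.Agent.LT.H338.TreeDist

/-!
# Row LT, tower T6 — trichotomy for distance-preserving maps of a tree distance (helper338)

Mathlib only.  For a distance-preserving map `g` of a tree distance and a point `x` of MINIMAL
displacement `t = d x (g x) ≥ 1`: either `t = 1` and `g (g x) = x` (`g` inverts the edge `{x, g x}`),
or `d x (g^[n] x) = n * t` for every `n` (`g` is hyperbolic).  Consequently a map one of whose
powers has a fixed point has a fixed point or inverts an edge (`fixed_or_inv338`).
-/

namespace Fermat.Agent.LT.H338

section Between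

variable {V : Type*} {d : V → V → ℕ} (hd : IsTreeDist338 d)

include hd in
/-- The triangle inequality follows from the four properties. -/
theorem tri338 (u v : V) : ∀ w : V, d u w ≤ d u v + d v w := by
  suffices h : ∀ (n : ℕ) (w : V), d v w = n → d u w ≤ d u v + d v w from fun w => h _ w rfl
  intro n
  induction n with
  | zero =>
    intro w hw
    have : v = w := (hd.eq_zero v w).1 hw
    subst this
    omega
  | succ n ih =>
    intro w hw
    have hvw : v ≠ w := root_ne_of_depth338 hd v hw
    have h1 := par338_adj hd v hvw
    have h2 := par338_depth hd v hvw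
    have h3 := ih (par338 hd v w) (by omega)
    rcases hd.step u w (par338 hd v w) h1 with h | h <;> omega

/-- Concatenation of geodesics without backtracking: if the neighbours of `y` towards `x` and
towards `z` are different, then `d x z = d x y + d y z`, and the neighbour of `z` towards `x` is the
neighbour of `z` towards `y`. -/
theorem concat338 : ∀ (n : ℕ) (x y z : V), d y z = n → x ≠ y → y ≠ z →
    par338 hd x y ≠ par338 hd z y →
    d x z = d x y + d y z ∧ par338 hd x z = par338 hd y z := by
  intro n
  induction n using Nat.strong_induction_on with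
  | _ n ih =>
    intro x y z hn hxy hyz hne
    -- `q` = neighbour of `y` towards `z`
    have hq1 := par338_adj hd z (Ne.symm hyz)
    have hq2 := par338_depth hd z (Ne.symm hyz)
    set q := par338 hd z y with hq
    -- `q` is further from `x` than `y`
    have hxq : d x q = d x y + 1 := by
      rcases hd.step x y q hq1 with h | h
      · exfalso
        exact hne (par338_unique hd x hxy hq1 h.symm).symm
      · exact h
    have hxq' : x ≠ q := root_ne_of_depth338 hd x hxq
    have hpq : par338 hd x q = y :=
      (par338_unique hd x hxq' (by rw [hd.symm]; exact hq1) hxq.symm).symm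
    by_cases hqz : q = z
    · -- `z` is the neighbour
      have hyz1 : d y z = 1 := by rw [← hqz]; exact hq1
      have hyz' : y ≠ z := hyz
      refine ⟨by rw [← hqz] at hyz1 ⊢; omega, ?_⟩
      rw [← hqz, hpq]
      exact par338_unique hd y (by rw [← hqz] at hyz'; exact hyz')
        (by rw [hd.symm]; exact hq1) (by rw [(hd.eq_zero y y).2 rfl]; exact hq1.symm ▸ rfl)
    · -- induction on the pair `(q, z)`
      have hzq : d z q = d z y - 1 := by omega
      have hqzn : d q z < n := by
        rw [hd.symm q z, hzq, hd.symm z y, hn]
        have : d y z ≠ 0 := fun e => hyz ((hd.eq_zero y z).1 e)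
        omega
      have hne' : par338 hd x q ≠ par338 hd z q := by
        rw [hpq]
        intro e
        have h1 := par338_depth hd z (Ne.symm hqz)
        rw [← e] at h1
        omega
      obtain ⟨h1, h2⟩ := ih (d q z) hqzn x q z rfl hxq' hqz hne'
      have hyq : d y z = d q z + 1 := by
        rw [hd.symm y z, hd.symm q z]; omega
      refine ⟨by omega, ?_⟩
      rw [h2]
      -- the neighbour of `z` towards `q` is the neighbour of `z` towards `y`
      have h3 := par338_adj hd q hqz
      have h4 := par338_depth hd q hqz
      refine par338_unique hd y hyz h3 ?_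
      rcases hd.step y z (par338 hd q z) h3 with h | h
      · exact h.symm
      · exfalso
        have h5 := tri338 hd y q (par338 hd q z)
        omega

end Between

section Tri

variable {V : Type*} {d : V → V → ℕ} (hd : IsTreeDist338 d)
  (g : V → V) (hg : ∀ x y, d (g x) (g y) = d x y)

include hd hg in
theorem map_injective338 : Function.Injective g := by
  intro x y h
  have := hg x y
  rw [h, (hd.eq_zero (g y) (g y)).2 rfl] at this
  exact (hd.eq_zero x y).1 this.symm

include hg in
theorem iterate_dist338 (n : ℕ) (x y : V) : d (g^[n] x) (g^[n] y) = d x y := by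
  induction n generalizing x y with
  | zero => rfl
  | succ n ih => rw [Function.iterate_succ_apply, Function.iterate_succ_apply, ih, hg]

include hg in
/-- `par` is equivariant (arbitrary root). -/
theorem map_par_gen338 {u v : V} (h : u ≠ v) :
    g (par338 hd u v) = par338 hd (g u) (g v) := by
  have h' : g u ≠ g v := fun e => h (map_injective338 hd g hg e)
  refine par338_unique hd (g u) h' ?_ ?_
  · rw [hg]; exact par338_adj hd u h
  · rw [hg, hg]; exact par338_depth hd u h

include hg in
theorem iterate_par338 (n : ℕ) {u v : V} (h : u ≠ v) :
    g^[n] (par338 hd u v) = par338 hd (g^[n] u) (g^[n] v) := by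
  induction n generalizing u v with
  | zero => rfl
  | succ n ih =>
    rw [Function.iterate_succ_apply, Function.iterate_succ_apply, Function.iterate_succ_apply,
      map_par_gen338 hd g hg h]
    exact ih (fun e => h (map_injective338 hd g hg e))

include hd hg in
/-- **Trichotomy** at a point of minimal displacement `≥ 1`: inversion or hyperbolic. -/
theorem inv_or_hyp338 (x : V) (hmin : ∀ y, d x (g x) ≤ d y (g y)) (hpos : 1 ≤ d x (g x)) :
    (d x (g x) = 1 ∧ g (g x) = x) ∨ ∀ n : ℕ, d x (g^[n] x) = n * d x (g x) := by
  have hxy : x ≠ g x := by
    intro e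
    have := (hd.eq_zero x (g x)).2 e
    omega
  have hyz : g x ≠ g (g x) := fun e => hxy (map_injective338 hd g hg e)
  have hdyz : d (g x) (g (g x)) = d x (g x) := hg x (g x)
  by_cases hp : par338 hd x (g x) = par338 hd (g (g x)) (g x)
  · left
    -- `u` = neighbour of `x` towards `g x`
    have hu1 := par338_adj hd (g x) (Ne.symm hxy)
    have hu2 := par338_depth hd (g x) (Ne.symm hxy)
    have hgu : g (par338 hd (g x) x) = par338 hd x (g x) := by
      rw [map_par_gen338 hd g hg (Ne.symm hxy), hp]
    by_cases ht : d x (g x) = 1
    · refine ⟨ht, ?_⟩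
      -- `u = g x` and `p = x`
      have hux : par338 hd (g x) x = g x := by
        have : d (g x) (par338 hd (g x) x) = 0 := by
          rw [hd.symm (g x) x] at hu2; omega
        exact ((hd.eq_zero _ _).1 this).symm
      have hpx : par338 hd x (g x) = x := by
        have h2 := par338_depth hd x hxy
        have : d x (par338 hd x (g x)) = 0 := by omega
        exact ((hd.eq_zero _ _).1 this).symm
      rw [hux, hpx] at hgu
      exact hgu
    · exfalso
      have huy : g x ≠ par338 hd (g x) x := by
        intro e
        rw [← e, (hd.eq_zero (g x) (g x)).2 rfl, hd.symm (g x) x] at hu2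
        omega
      have h3 := star338 hd x (d (g x) (par338 hd (g x) x)) (g x) (par338 hd (g x) x) rfl huy
        (by rw [hu1]; omega)
      have h4 := hmin (par338 hd (g x) x)
      rw [hgu] at h4
      rw [hd.symm (g x) x] at hu2
      rw [hd.symm (par338 hd (g x) x) (g x)] at h3
      omega
  · right
    -- hyperbolic: induction with the direction of the last step
    have key : ∀ n : ℕ, d x (g^[n + 1] x) = (n + 1) * d x (g x) ∧
        par338 hd x (g^[n + 1] x) = par338 hd (g^[n] x) (g^[n + 1] x) := by
      intro n
      induction n with
      | zero => exact ⟨by simp, rfl⟩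
      | succ n ih =>
        obtain ⟨h1, h2⟩ := ih
        have hY : x ≠ g^[n + 1] x := by
          intro e
          have := (hd.eq_zero x (g^[n + 1] x)).2 e
          rw [h1] at this
          have : 0 < (n + 1) * d x (g x) := Nat.mul_pos (Nat.succ_pos n) hpos
          omega
        have hYZ : d (g^[n + 1] x) (g^[n + 1 + 1] x) = d x (g x) := by
          have := iterate_dist338 g hg (n + 1) x (g x)
          rw [← Function.iterate_succ_apply] at this
          exact this
        have hYZne : g^[n + 1] x ≠ g^[n + 1 + 1] x := by
          intro e
          have := (hd.eq_zero _ _).2 e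
          omega
        have hdir : par338 hd x (g^[n + 1] x) ≠ par338 hd (g^[n + 1 + 1] x) (g^[n + 1] x) := by
          rw [h2]
          have e1 : par338 hd (g^[n] x) (g^[n + 1] x) = g^[n] (par338 hd x (g x)) := by
            rw [iterate_par338 hd g hg n hxy, ← Function.iterate_succ_apply]
          have e2 : par338 hd (g^[n + 1 + 1] x) (g^[n + 1] x)
              = g^[n] (par338 hd (g (g x)) (g x)) := by
            rw [iterate_par338 hd g hg n (Ne.symm hyz), ← Function.iterate_succ_apply,
              ← Function.iterate_succ_apply, ← Function.iterate_succ_apply]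
          rw [e1, e2]
          exact fun e => hp ((map_injective338 hd g hg).iterate n e)
        obtain ⟨h3, h4⟩ := concat338 hd _ x (g^[n + 1] x) (g^[n + 1 + 1] x) rfl hY hYZne hdir
        refine ⟨?_, h4⟩
        rw [h3, h1, hYZ]; ring
    intro n
    cases n with
    | zero => simp [(hd.eq_zero x x).2 rfl]
    | succ n => exact (key n).1

/-- A point of minimal displacement exists. -/
theorem exists_min_disp338 [Nonempty V] : ∃ x, ∀ y, d x (g x) ≤ d y (g y) := by
  classical
  have hex : ∃ n, ∃ x, d x (g x) = n := ⟨_, Classical.arbitrary V, rfl⟩
  obtain ⟨x, hx⟩ := Nat.find_spec hex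
  refine ⟨x, fun y => ?_⟩
  rw [hx]
  exact Nat.find_min' hex ⟨y, rfl⟩

include hd hg in
/-- **A map one of whose powers has a fixed point has a fixed point or inverts an edge.** -/
theorem fixed_or_inv338 (N : ℕ) (hN : 1 ≤ N) (y₀ : V) (hy₀ : g^[N] y₀ = y₀) :
    (∃ x, g x = x) ∨ ∃ a b, d a b = 1 ∧ g a = b ∧ g b = a := by
  have : Nonempty V := ⟨y₀⟩
  obtain ⟨x, hmin⟩ := exists_min_disp338 (d := d) g
  by_cases h0 : d x (g x) = 0
  · left; exact ⟨x, ((hd.eq_zero _ _).1 h0).symm⟩
  · rcases inv_or_hyp338 hd g hg x hmin (by omega) with ⟨h1, h2⟩ | h
    · right; exact ⟨x, g x, h1, rfl, h2⟩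
    · exfalso
      -- bounded orbit
      have hfix : ∀ m : ℕ, g^[N * m] y₀ = y₀ := by
        intro m
        induction m with
        | zero => rfl
        | succ m ih => rw [Nat.mul_succ, Function.iterate_add_apply, hy₀, ih]
      set m := 2 * d x y₀ + 1 with hm
      have h1 := h (N * m)
      have h2 := tri338 hd x y₀ (g^[N * m] x)
      have h3 := iterate_dist338 g hg (N * m) y₀ x
      rw [hfix m] at h3
      rw [h3, hd.symm y₀ x] at h2
      have h4 : N * m * d x (g x) ≥ m := by
        calc N * m * d x (g x) ≥ 1 * m * 1 :=
              Nat.mul_le_mul (Nat.mul_le_mul hN le_rfl) (by omega)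
          _ = m := by ring
      omega

end Tri

end Fermat.Agent.LT.H338
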