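import Fermat.Agent.LT.H338.TreeDist

/-!
# Row LT, tower T6 — the count of a "ball-like" subset of a tree (helper338, OFF-MAIN)

Mathlib only.  `ncard_subball338` : let `d` be a tree distance on `V`, `T ⊆ V`, `c ∈ T`, such that
* `T` contains with `v ≠ c` the neighbour of `v` towards `c`,
* every `v ∈ T` has `d c v ≤ r`,
* every `v ∈ T` with `d c v < r` has exactly `q + 1` neighbours in `T`.
Then `T` has exactly `1 + (q + 1) (1 + q + ⋯ + q^(r-1))` elements (the cardinality of a ball of
radius `r` in a `(q+1)`-regular tree).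

Use: the fixed points of `δ σ` on the tree of `k'` (`T` = the fixed points, `q + 1` = the number
of fixed neighbours of an interior fixed vertex, by descent on the link), leaf T6.13.3b.
-/

namespace Fermat.Agent.LT.H338

open Finset Classical

section SubBall

variable {V : Type*} {d : V → V → ℕ} (hd : IsTreeDist338 d) (c : V) (q r : ℕ) (T : Set V)

/-- The finset of the neighbours of `v` in `T` (empty if there are infinitely many). -/
noncomputable def nbT338 (d : V → V → ℕ) (T : Set V) (v : V) : Finset V :=
  if h : {w | w ∈ T ∧ d v w = 1}.Finite then h.toFinset else ∅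

theorem mem_nbT338 {v w : V} (h : {w | w ∈ T ∧ d v w = 1}.ncard = q + 1) :
    w ∈ nbT338 d T v ↔ w ∈ T ∧ d v w = 1 := by
  have hfin : {w | w ∈ T ∧ d v w = 1}.Finite :=
    Set.finite_of_ncard_ne_zero (by rw [h]; omega)
  rw [nbT338, dif_pos hfin, Set.Finite.mem_toFinset]
  rfl

theorem card_nbT338 {v : V} (h : {w | w ∈ T ∧ d v w = 1}.ncard = q + 1) :
    (nbT338 d T v).card = q + 1 := by
  have hfin : {w | w ∈ T ∧ d v w = 1}.Finite :=
    Set.finite_of_ncard_ne_zero (by rw [h]; omega)
  rw [nbT338, dif_pos hfin, ← Set.ncard_eq_toFinset_card _ hfin, h]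

/-- The children in `T` of `v` with respect to the root `c`. -/
noncomputable def chT338 (d : V → V → ℕ) (c : V) (T : Set V) (v : V) : Finset V :=
  (nbT338 d T v).filter (fun z => d c z = d c v + 1)

/-- The levels of `T`. -/
noncomputable def lvT338 (d : V → V → ℕ) (c : V) (T : Set V) : ℕ → Finset V
  | 0 => {c}
  | (n + 1) => (lvT338 d c T n).biUnion (chT338 d c T)

variable (hc : c ∈ T) (hpar : ∀ v ∈ T, c ≠ v → par338 hd c v ∈ T)
  (hint : ∀ v ∈ T, d c v < r → {w | w ∈ T ∧ d v w = 1}.ncard = q + 1)

include hd hc hpar hint in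
theorem mem_lvT338 : ∀ n : ℕ, n ≤ r → ∀ x : V, x ∈ lvT338 d c T n ↔ x ∈ T ∧ d c x = n := by
  intro n
  induction n with
  | zero =>
    intro _ x
    rw [lvT338, mem_singleton]
    constructor
    · rintro rfl
      exact ⟨hc, (hd.eq_zero x x).2 rfl⟩
    · rintro ⟨_, h⟩
      exact ((hd.eq_zero c x).1 h).symm
  | succ n ih =>
    intro hn x
    rw [lvT338, mem_biUnion]
    constructor
    · rintro ⟨v, hv, hx⟩
      rw [ih (by omega)] at hv
      rw [chT338, mem_filter, mem_nbT338 q T (hint v hv.1 (by omega))] at hx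
      exact ⟨hx.1.1, by rw [hx.2, hv.2]⟩
    · rintro ⟨hxT, hx⟩
      have hcx : c ≠ x := root_ne_of_depth338 hd c hx
      have hp := par338_depth hd c hcx
      have hpT := hpar x hxT hcx
      have hdp : d c (par338 hd c x) = n := by omega
      refine ⟨par338 hd c x, (ih (by omega) _).2 ⟨hpT, hdp⟩, ?_⟩
      rw [chT338, mem_filter, mem_nbT338 q T (hint _ hpT (by omega))]
      refine ⟨⟨hxT, ?_⟩, by omega⟩
      rw [hd.symm]; exact par338_adj hd c hcx

include hd in
theorem par_of_mem_chT338 {v z : V} (hv : {w | w ∈ T ∧ d v w = 1}.ncard = q + 1)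
    (h : z ∈ chT338 d c T v) : c ≠ z ∧ par338 hd c z = v := by
  rw [chT338, mem_filter, mem_nbT338 q T hv] at h
  have hcz : c ≠ z := root_ne_of_depth338 hd c h.2
  refine ⟨hcz, (par338_unique hd c hcz ?_ h.2.symm).symm⟩
  rw [hd.symm]; exact h.1.2

include hd in
theorem card_chT_root338 (hv : {w | w ∈ T ∧ d c w = 1}.ncard = q + 1) :
    (chT338 d c T c).card = q + 1 := by
  have : chT338 d c T c = nbT338 d T c := by
    ext z
    rw [chT338, mem_filter, mem_nbT338 q T hv]
    constructor
    · exact fun h => h.1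
    · intro h
      refine ⟨h, ?_⟩
      rw [(hd.eq_zero c c).2 rfl, h.2]
  rw [this, card_nbT338 q T hv]

include hd in
theorem card_chT338 {v : V} (hcv : c ≠ v) (hpT : par338 hd c v ∈ T)
    (hv : {w | w ∈ T ∧ d v w = 1}.ncard = q + 1) : (chT338 d c T v).card = q := by
  have hins : nbT338 d T v = insert (par338 hd c v) (chT338 d c T v) := by
    ext z
    rw [mem_insert, chT338, mem_filter, mem_nbT338 q T hv]
    constructor
    · intro hz
      rcases hd.step c v z hz.2 with h1 | h1
      · left; exact par338_unique hd c hcv hz.2 h1.symm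
      · right; exact ⟨hz, h1⟩
    · rintro (rfl | hz)
      · exact ⟨hpT, par338_adj hd c hcv⟩
      · exact hz.1
  have hnot : par338 hd c v ∉ chT338 d c T v := by
    intro hm
    rw [chT338, mem_filter] at hm
    have := par338_depth hd c hcv
    omega
  have := card_nbT338 q T hv
  rw [hins, card_insert_of_notMem hnot] at this
  omega

include hd hc hpar hint in
theorem card_lvT_succ338 (n : ℕ) (hn : n + 1 ≤ r) :
    (lvT338 d c T (n + 1)).card = (q + 1) * q ^ n := by
  induction n with
  | zero =>
    have h0 : {w | w ∈ T ∧ d c w = 1}.ncard = q + 1 :=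
      hint c hc (by rw [(hd.eq_zero c c).2 rfl]; omega)
    rw [lvT338, lvT338, singleton_biUnion, card_chT_root338 hd c q T h0, pow_zero, mul_one]
  | succ n ih =>
    have hmem := mem_lvT338 hd c q r T hc hpar hint (n + 1) (by omega)
    rw [lvT338, card_biUnion]
    · have hsum : ∀ v ∈ lvT338 d c T (n + 1), (chT338 d c T v).card = q := by
        intro v hv
        rw [hmem] at hv
        have hcv : c ≠ v := root_ne_of_depth338 hd c hv.2
        exact card_chT338 hd c q T hcv (hpar v hv.1 hcv) (hint v hv.1 (by omega))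
      rw [sum_congr rfl hsum, sum_const, smul_eq_mul, ih (by omega)]
      ring
    · intro v hv v' hv' hne
      rw [Function.onFun, Finset.disjoint_left]
      intro z hz hz'
      rw [mem_coe, hmem] at hv hv'
      exact hne ((par_of_mem_chT338 hd c q T (hint v hv.1 (by omega)) hz).2.symm.trans
        (par_of_mem_chT338 hd c q T (hint v' hv'.1 (by omega)) hz').2)

include hd hc hpar hint in
/-- **The count of a ball-like subset of a tree.** -/
theorem ncard_subball338 (hrad : ∀ v ∈ T, d c v ≤ r) :
    T.ncard = 1 + (q + 1) * ∑ i ∈ Finset.range r, q ^ i := by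
  have hmem := mem_lvT338 hd c q r T hc hpar hint
  have hT : T = ↑((Finset.range (r + 1)).biUnion (lvT338 d c T)) := by
    ext x
    rw [mem_coe, mem_biUnion]
    constructor
    · intro hx
      exact ⟨d c x, mem_range.2 (by have := hrad x hx; omega),
        (hmem _ (hrad x hx) x).2 ⟨hx, rfl⟩⟩
    · rintro ⟨n, hn, hx⟩
      rw [mem_range] at hn
      exact ((hmem n (by omega) x).1 hx).1
  rw [hT, Set.ncard_coe_finset, card_biUnion]
  · have h0 : (lvT338 d c T 0).card = 1 := by rw [lvT338, card_singleton]
    have hs : ∑ n ∈ Finset.range r, (lvT338 d c T (n + 1)).card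
        = ∑ i ∈ Finset.range r, (q + 1) * q ^ i := by
      apply Finset.sum_congr rfl
      intro n hn
      rw [mem_range] at hn
      exact card_lvT_succ338 hd c q r T hc hpar hint n (by omega)
    rw [Finset.sum_range_succ', h0, hs, Finset.mul_sum, add_comm]
  · intro n hn n' hn' hne
    rw [Function.onFun, Finset.disjoint_left]
    intro z hz hz'
    rw [mem_coe, mem_range] at hn hn'
    have h1 := ((hmem n (by omega) z).1 hz).2
    have h2 := ((hmem n' (by omega) z).1 hz').2
    exact hne (h1.symm.trans h2)

end SubBall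

end Fermat.Agent.LT.H338
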