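import Fermat.Agent.LT.H338.TreeDist

/-!
# Row LT, tower T6 — from a pre-tree-distance to a tree distance on the quotient (helper338)

Mathlib only.  `IsPreTreeDist338 D` : the properties of `D g g' = (a - b of the Cartan invariant of
g⁻¹ g')` on a group, where `D = 0` is the coset relation.  `isTreeDist_quot338` : the induced
function on the quotient by `D = 0` is a tree distance; `ncard_nb_quot338` : neighbour count from
a finite system of representatives.
-/

namespace Fermat.Agent.LT.H338

/-- The properties of a function `D : G → G → ℕ` whose quotient by `D = 0` is a tree distance. -/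
structure IsPreTreeDist338 {G : Type*} (D : G → G → ℕ) : Prop where
  self : ∀ x, D x x = 0
  symm : ∀ x y, D x y = D y x
  congr : ∀ x y, D x y = 0 → ∀ z, D z x = D z y
  step : ∀ u v w, D v w = 1 → D u v = D u w + 1 ∨ D u w = D u v + 1
  toward_ex : ∀ u v, D u v ≠ 0 → ∃ w, D v w = 1 ∧ D u w + 1 = D u v
  toward_uniq : ∀ u v w w', D v w = 1 → D v w' = 1 → D u w + 1 = D u v → D u w' + 1 = D u v →
    D w w' = 0

section

variable {G : Type*} {D : G → G → ℕ} (hD : IsPreTreeDist338 D)

/-- The equivalence relation `D = 0`. -/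
def preSetoid338 : Setoid G where
  r x y := D x y = 0
  iseqv := by
    refine ⟨hD.self, fun {x y} h => by rw [hD.symm]; exact h, fun {x y z} h1 h2 => ?_⟩
    rw [← hD.congr y z h2 x]; exact h1

/-- The quotient by `D = 0`. -/
def PreQuot338 : Type _ := Quotient (preSetoid338 hD)

/-- The class of an element. -/
def preMk338 (x : G) : PreQuot338 hD := Quotient.mk (preSetoid338 hD) x

theorem preMk338_eq_iff (x y : G) : preMk338 hD x = preMk338 hD y ↔ D x y = 0 :=
  Quotient.eq (r := preSetoid338 hD)

theorem preMk338_surj (w : PreQuot338 hD) : ∃ x, preMk338 hD x = w :=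
  Quotient.exists_rep w

/-- The induced distance on the quotient. -/
def quotDist338 : PreQuot338 hD → PreQuot338 hD → ℕ :=
  Quotient.lift₂ (s₁ := preSetoid338 hD) (s₂ := preSetoid338 hD) D (by
    intro x y x' y' hx hy
    have h1 : D x y = D x y' := hD.congr y y' hy x
    have h2 : D y' x = D y' x' := hD.congr x x' hx y'
    rw [h1, hD.symm x y', h2, hD.symm y' x'])

@[simp] theorem quotDist338_mk (x y : G) :
    quotDist338 hD (preMk338 hD x) (preMk338 hD y) = D x y := rfl

/-- **The quotient of a pre-tree-distance is a tree distance.** -/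
theorem isTreeDist_quot338 : IsTreeDist338 (quotDist338 hD) := by
  refine ⟨?_, ?_, ?_, ?_⟩
  · intro x y
    obtain ⟨x, rfl⟩ := preMk338_surj hD x
    obtain ⟨y, rfl⟩ := preMk338_surj hD y
    rw [quotDist338_mk, preMk338_eq_iff]
  · intro x y
    obtain ⟨x, rfl⟩ := preMk338_surj hD x
    obtain ⟨y, rfl⟩ := preMk338_surj hD y
    exact hD.symm x y
  · intro u v w
    obtain ⟨u, rfl⟩ := preMk338_surj hD u
    obtain ⟨v, rfl⟩ := preMk338_surj hD v
    obtain ⟨w, rfl⟩ := preMk338_surj hD w
    exact hD.step u v w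
  · intro u v huv
    obtain ⟨u, rfl⟩ := preMk338_surj hD u
    obtain ⟨v, rfl⟩ := preMk338_surj hD v
    have hne : D u v ≠ 0 := fun e => huv ((preMk338_eq_iff hD u v).2 e)
    obtain ⟨w, hw1, hw2⟩ := hD.toward_ex u v hne
    refine ⟨preMk338 hD w, ⟨hw1, hw2⟩, ?_⟩
    intro w' hw'
    obtain ⟨w', rfl⟩ := preMk338_surj hD w'
    rw [preMk338_eq_iff]
    exact hD.toward_uniq u v w' w hw'.1 hw1 hw'.2 hw2

/-- **Neighbour count** from a finite system of representatives. -/
theorem ncard_nb_quot338 (v : G) (R : Finset G) (h1 : ∀ r ∈ R, D v r = 1)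
    (h2 : ∀ r ∈ R, ∀ r' ∈ R, D r r' = 0 → r = r')
    (h3 : ∀ w, D v w = 1 → ∃ r ∈ R, D r w = 0) :
    {w : PreQuot338 hD | quotDist338 hD (preMk338 hD v) w = 1}.ncard = R.card := by
  have himg : {w : PreQuot338 hD | quotDist338 hD (preMk338 hD v) w = 1}
      = (preMk338 hD) '' (R : Set G) := by
    ext w
    obtain ⟨w, rfl⟩ := preMk338_surj hD w
    constructor
    · intro hw
      obtain ⟨r, hr, hrw⟩ := h3 w hw
      exact ⟨r, hr, (preMk338_eq_iff hD r w).2 hrw⟩
    · rintro ⟨r, hr, hrw⟩
      have : D r w = 0 := (preMk338_eq_iff hD r w).1 hrw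
      show D v w = 1
      rw [← hD.congr r w this v]
      exact h1 r hr
  have hinj : Set.InjOn (preMk338 hD) (R : Set G) := by
    intro r hr r' hr' e
    exact h2 r hr r' hr' ((preMk338_eq_iff hD r r').1 e)
  rw [himg, hinj.ncard_image, Set.ncard_coe_finset]

end

end Fermat.Agent.LT.H338
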